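import Fermat.Agent.Root.SummaryConductorDiscriminant
import Fermat.Agent.CycloGrowth.Residue
import Fermat.Agent.Tau.SiegelBound
import Mathlib.NumberTheory.LSeries.Nonvanishing

/-!
# The ideals of a quadratic field of bounded norm

`ζ_K = ζ L (·, χ)` with `χ` of conductor `|d|`, so at most `2 √|d| N` ideals have norm `≤ N`: the
sums of `χ` are at most `|d|` and at most their length.
-/

set_option autoImplicit false
set_option linter.style.haveILetI false

noncomputable section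

open NumberField Module Finset DirichletCharacter
open scoped Classical

namespace FA.QuarticFieldsCount

variable {K : Type} [Field K] [NumberField K]

/-- The number of ideals of norm `n`. -/
def normFibre (K : Type) [Field K] [NumberField K] (n : ℕ) : ℕ :=
  Nat.card {I : Ideal (𝓞 K) // Ideal.absNorm I = n}

theorem exists_char (hK : finrank ℚ K = 2) :
    ∃ (f : ℕ) (_ : NeZero f) (χ : DirichletCharacter ℂ f), χ ≠ 1 ∧ f = (discr K).natAbs ∧
      ∀ n : ℕ, n ≠ 0 → (normFibre K n : ℂ) = χ.zetaMul n := by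
  haveI : Algebra.IsQuadraticExtension ℚ K := ⟨hK⟩
  haveI : IsGalois ℚ K := ⟨⟩
  haveI : IsMulCommutative Gal(K/ℚ) := by
    have hc : Nat.card Gal(K/ℚ) = 2 := by rw [IsGalois.card_aut_eq_finrank, hK]
    haveI : Fact (Nat.Prime 2) := ⟨Nat.prime_two⟩
    haveI := isCyclic_of_prime_card hc
    exact ⟨⟨fun a b => (IsCyclic.commGroup (α := Gal(K/ℚ))).mul_comm a b⟩⟩
  haveI : IsAbelianGalois ℚ K := ⟨⟩
  obtain ⟨n, hn, X, hX, hzeta, hdisc⟩ := FA.Summary.conductor_discriminant_abelian K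
  set F := (X : Set (DirichletCharacter ℂ n)).toFinite.toFinset
  have hcard : F.card = 2 := by
    rw [← hK, ← hX]
    exact (Nat.card_eq_card_finite_toFinset _).symm
  have h1 : (1 : DirichletCharacter ℂ n) ∈ F := (Set.Finite.mem_toFinset _).mpr X.one_mem
  obtain ⟨ψ, hψ⟩ := card_eq_one.1 (show (F.erase 1).card = 1 by
    rw [card_erase_of_mem h1, hcard])
  have hψ1 : ψ ≠ 1 := (mem_erase.1 (hψ ▸ mem_singleton_self ψ)).1
  haveI : NeZero ψ.conductor := ⟨ψ.conductor_ne_zero⟩
  set χ := ψ.primitiveCharacter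
  refine ⟨ψ.conductor, inferInstance, χ, FA.AbelianZeta.primitive_ne_one hψ1, ?_, ?_⟩
  · rw [hdisc, ← mul_prod_erase F _ h1, hψ, prod_singleton, conductor_one, one_mul]
  have hsum : ∀ s : ℂ, 1 < s.re →
      LSeries (fun n => (normFibre K n : ℂ)) s = LSeries (χ.zetaMul ·) s := by
    intro s hs
    show dedekindZeta K s = _
    rw [hzeta s hs, ← mul_prod_erase F _ h1, hψ, prod_singleton,
      FA.AbelianZeta.LFunction_eq_riemannZeta _ conductor_one,
      LFunction_eq_LSeries _ hs, zetaMul, ← ArithmeticFunction.coe_mul, LSeries_convolution']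
    · congr 1
      · simp_rw [← ArithmeticFunction.LSeries_zeta_eq_riemannZeta hs,
          ← ArithmeticFunction.natCoe_apply]
      · exact LSeries_congr χ.apply_eq_toArithmeticFunction_apply s
    · exact ArithmeticFunction.LSeriesSummable_zeta_iff.mpr hs
    · exact (LSeriesSummable_congr _ fun h => (χ.apply_eq_toArithmeticFunction_apply h).symm).mpr <|
        ZMod.LSeriesSummable_of_one_lt_re χ hs
  intro m hm
  have ha : LSeries.abscissaOfAbsConv (χ.zetaMul ·) < ⊤ :=
    (LSeriesSummable.abscissaOfAbsConv_le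
      (χ.LSeriesSummable_zetaMul (s := 2) (by norm_num))).trans_lt (EReal.coe_lt_top _)
  have hb : LSeries.abscissaOfAbsConv (fun n => (normFibre K n : ℂ)) < ⊤ :=
    (LSeriesSummable.abscissaOfAbsConv_le
      (FA.CycloGrowth.lseriesSummable_ideal K (s := 2) (by norm_num))).trans_lt (EReal.coe_lt_top _)
  refine LSeries.eq_of_LSeries_eventually_eq hb ha ?_ hm
  filter_upwards [Filter.eventually_gt_atTop (1 : ℝ)] with x hx
  exact hsum x (by simpa using hx)

theorem sum_inv_sqrt_le (N : ℕ) :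
    ∑ b ∈ Ioc 0 N, 1 / Real.sqrt (b : ℝ) ≤ 2 * Real.sqrt (N : ℝ) := by
  induction N with
  | zero => simp
  | succ N ih =>
    rw [sum_Ioc_succ_top (Nat.zero_le N)]
    set u := Real.sqrt (N : ℝ)
    set w := Real.sqrt ((N + 1 : ℕ) : ℝ)
    have hu : u ^ 2 = N := Real.sq_sqrt (Nat.cast_nonneg N)
    have hw : w ^ 2 = N + 1 := by
      simp only [w]; rw [Real.sq_sqrt (Nat.cast_nonneg _)]; push_cast; ring
    have hw0 : 0 < w := Real.sqrt_pos.mpr (by positivity)
    have h : 1 / w ≤ 2 * w - 2 * u := by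
      rw [div_le_iff₀ hw0]
      nlinarith [sq_nonneg (w - u)]
    linarith

/-- **At most `2 √|d| N` ideals of norm `≤ N`.** -/
theorem idealCount_le (hK : finrank ℚ K = 2) (N : ℕ) :
    ((∑ n ∈ Ioc 0 N, normFibre K n : ℕ) : ℝ) ≤ 2 * Real.sqrt |(discr K : ℝ)| * N := by
  obtain ⟨f, _, χ, hχ, hf, ha⟩ := exists_char hK
  have h1 : ((∑ n ∈ Ioc 0 N, normFibre K n : ℕ) : ℂ) =
      ∑ b ∈ Ioc 0 N, FA.Siegel.charSum χ ((N / b : ℕ) : ℝ) := by
    push_cast
    rw [sum_congr rfl fun n hn => ha n (by simp at hn; omega), zetaMul,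
      ArithmeticFunction.sum_Ioc_mul_eq_sum_sum]
    refine sum_congr rfl fun b hb => ?_
    have hb0 : b ≠ 0 := by simp at hb; omega
    rw [ArithmeticFunction.natCoe_apply, ArithmeticFunction.zeta_apply_ne hb0, Nat.cast_one,
      one_mul, FA.Siegel.charSum, Nat.floor_natCast]
    exact sum_congr rfl fun a ha =>
      (χ.apply_eq_toArithmeticFunction_apply (by simp at ha; omega)).symm
  have h2 : ((∑ n ∈ Ioc 0 N, normFibre K n : ℕ) : ℝ) ≤
      ∑ b ∈ Ioc 0 N, Real.sqrt f * (Real.sqrt N * (1 / Real.sqrt (b : ℝ))) := by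
    rw [show ((∑ n ∈ Ioc 0 N, normFibre K n : ℕ) : ℝ) =
      ‖((∑ n ∈ Ioc 0 N, normFibre K n : ℕ) : ℂ)‖ by rw [Complex.norm_natCast], h1]
    refine (norm_sum_le _ _).trans (sum_le_sum fun b hb => ?_)
    set z := ‖FA.Siegel.charSum χ ((N / b : ℕ) : ℝ)‖
    have hz1 : z ≤ f := FA.Siegel.norm_charSum_le hχ _
    have hz2 : z ≤ (N : ℝ) / b :=
      (FA.Siegel.norm_charSum_le_self (Nat.cast_nonneg _)).trans Nat.cast_div_le
    have hz : z ≤ Real.sqrt ((f : ℝ) * ((N : ℝ) / b)) := by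
      refine Real.le_sqrt_of_sq_le ?_
      rw [sq]
      exact mul_le_mul hz1 hz2 (norm_nonneg _) (Nat.cast_nonneg _)
    refine hz.trans (le_of_eq ?_)
    rw [Real.sqrt_mul (Nat.cast_nonneg _), Real.sqrt_div (Nat.cast_nonneg _)]
    ring
  refine h2.trans ?_
  rw [← mul_sum, ← mul_sum,
    show |(discr K : ℝ)| = ((f : ℕ) : ℝ) by rw [hf, Nat.cast_natAbs, Int.cast_abs]]
  calc Real.sqrt f * (Real.sqrt N * ∑ b ∈ Ioc 0 N, 1 / Real.sqrt (b : ℝ))
      ≤ Real.sqrt f * (Real.sqrt N * (2 * Real.sqrt N)) := by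
        gcongr; exact sum_inv_sqrt_le N
    _ = _ := by
        rw [show Real.sqrt N * (2 * Real.sqrt N) = 2 * (Real.sqrt N * Real.sqrt N) by ring,
          Real.mul_self_sqrt (Nat.cast_nonneg _)]
        ring

end FA.QuarticFieldsCount
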