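import Fermat.Agent.BrumerSilverman.Key
import Fermat.Agent.QuarticFieldsCount.IdealCount
import Mathlib.Algebra.QuadraticAlgebra.Basic
import Mathlib.NumberTheory.NumberField.Discriminant.Different

/-!
# The quadratic extensions of a number field with bounded relative discriminant

`L = K(√α)` is fixed by the primes where `α` has odd exponent, a class killed by `2` and a unit up
to squares; these primes are ramified, so the product of their norms divides that of the different.
-/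

set_option autoImplicit false
set_option linter.style.haveILetI false

noncomputable section

open NumberField IsDedekindDomain Module Finset
open FA.BrumerSilverman (expo span_singleton_ne expo_ne_zero_iff)
open scoped nonZeroDivisors Classical

namespace FA.QuarticFieldsCount

/-- A quadratic extension is generated by a square root. -/
theorem exists_sq_root {K L : Type} [Field K] [CharZero K] [Field L] [Algebra K L]
    (h2 : finrank K L = 2) :
    ∃ y : L, y ∉ Set.range (algebraMap K L) ∧ ∃ q : K, y ^ 2 = algebraMap K L q := by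
  haveI : Module.Finite K L := Module.finite_of_finrank_eq_succ h2
  obtain ⟨θ, hθ⟩ : ∃ θ : L, θ ∉ Set.range (algebraMap K L) := by
    by_contra hcon
    push Not at hcon
    have := (AlgEquiv.ofBijective (Algebra.ofId K L)
      ⟨(algebraMap K L).injective, hcon⟩).toLinearEquiv.finrank_eq
    rw [finrank_self, h2] at this
    omega
  have hint : IsIntegral K θ := IsIntegral.of_finite K θ
  have hdeg : (minpoly K θ).natDegree = 2 :=
    le_antisymm (h2 ▸ minpoly.natDegree_le θ) ((minpoly.two_le_natDegree_iff hint).mpr hθ)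
  have h := minpoly.aeval K θ
  rw [Polynomial.aeval_eq_sum_range, hdeg, sum_range_succ, sum_range_succ, sum_range_succ,
    sum_range_zero] at h
  have hlead : (minpoly K θ).coeff 2 = 1 := hdeg ▸ minpoly.monic hint
  rw [hlead] at h
  set b := (minpoly K θ).coeff 1
  set c := (minpoly K θ).coeff 0
  simp only [Algebra.smul_def, zero_add, pow_zero, pow_one, mul_one, map_one, one_mul] at h
  haveI : CharZero L := charZero_of_injective_algebraMap (algebraMap K L).injective
  refine ⟨2 * θ + algebraMap K L b, ?_, b ^ 2 - 4 * c, ?_⟩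
  · rintro ⟨r, hr⟩
    refine hθ ⟨(r - b) / 2, ?_⟩
    rw [map_div₀, map_sub, hr, map_ofNat]
    ring
  · simp only [map_sub, map_pow, map_mul, map_ofNat]
    linear_combination 4 * h

variable {K : Type} [Field K] [NumberField K]

/-- The root can be taken of an integer. -/
theorem exists_integral_sq_root {L : Type} [Field L] [Algebra K L] (h2 : finrank K L = 2) :
    ∃ y : L, y ∉ Set.range (algebraMap K L) ∧
      ∃ α : 𝓞 K, α ≠ 0 ∧ y ^ 2 = algebraMap K L (α : K) := by
  obtain ⟨y, hy, q, hq⟩ := exists_sq_root h2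
  obtain ⟨a, s, hs, hqs⟩ := IsFractionRing.div_surjective (A := 𝓞 K) q
  have hs0 : (s : K) ≠ 0 :=
    RingOfIntegers.coe_ne_zero_iff.mpr (nonZeroDivisors.ne_zero hs)
  have hsL : algebraMap K L (s : K) ≠ 0 := by simpa using hs0
  have hq0 : q ≠ 0 := by
    rintro rfl
    exact hy ⟨0, by rw [map_zero] at hq ⊢; exact (pow_eq_zero_iff two_ne_zero).mp hq |>.symm⟩
  refine ⟨y * algebraMap K L (s : K), ?_, a * s, ?_, ?_⟩
  · rintro ⟨r, hr⟩
    exact hy ⟨r / (s : K), by rw [map_div₀, hr, mul_div_cancel_right₀ _ hsL]⟩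
  · intro h0
    rcases mul_eq_zero.mp h0 with h | h
    · exact hq0 (by rw [← hqs, h]; simp)
    · exact hs0 (by rw [h]; simp)
  · rw [mul_pow, hq, ← map_pow, ← map_mul, ← hqs]
    congr 1
    push_cast
    field_simp

omit [NumberField K] in
/-- Two roots of the same element. -/
theorem iso_of_sq {L L' : Type} [Field L] [Field L'] [Algebra K L] [Algebra K L']
    (hL : finrank K L = 2) (hL' : finrank K L' = 2) {c : K} {y : L} {z : L'}
    (hy : y ∉ Set.range (algebraMap K L)) (hz : z ∉ Set.range (algebraMap K L'))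
    (hyc : y ^ 2 = algebraMap K L c) (hzc : z ^ 2 = algebraMap K L' c) :
    Nonempty (L ≃+* L') := by
  suffices key : ∀ (M : Type) [Field M] [Algebra K M], finrank K M = 2 → ∀ w : M,
      w ∉ Set.range (algebraMap K M) → w ^ 2 = algebraMap K M c →
      Nonempty (QuadraticAlgebra K c 0 ≃ₐ[K] M) by
    obtain ⟨e⟩ := key L hL y hy hyc
    obtain ⟨e'⟩ := key L' hL' z hz hzc
    exact ⟨(e.symm.trans e').toRingEquiv⟩
  intro M _ _ hM w hw hwc
  let φ : QuadraticAlgebra K c 0 →ₐ[K] M := QuadraticAlgebra.lift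
    ⟨w, by rw [zero_smul, add_zero, ← Algebra.algebraMap_eq_smul_one, ← hwc, sq]⟩
  haveI : Module.Finite K M := Module.finite_of_finrank_eq_succ hM
  have hφ : ∀ x, φ x = algebraMap K M x.re + algebraMap K M x.im * w := fun x => by
    show x.re • (1 : M) + x.im • w = _
    rw [Algebra.smul_def, Algebra.smul_def, mul_one]
  have hinj : Function.Injective φ := by
    rw [injective_iff_map_eq_zero]
    intro x hx
    rw [hφ] at hx
    by_cases him : x.im = 0
    · rw [him, map_zero, zero_mul, add_zero, map_eq_zero] at hx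
      exact QuadraticAlgebra.ext hx (by simpa using him)
    · refine absurd ⟨-x.re / x.im, ?_⟩ hw
      rw [map_div₀, div_eq_iff ((_root_.map_ne_zero _).mpr him), map_neg]
      linear_combination -hx
  exact ⟨AlgEquiv.ofBijective φ ⟨hinj, (LinearMap.injective_iff_surjective_of_finrank_eq_finrank
    (f := φ.toLinearMap) (by rw [QuadraticAlgebra.finrank_eq_two, hM])).mp hinj⟩⟩

/-- Every integer is a squarefree ideal times a square. -/
theorem exists_decomposition {z : 𝓞 K} (hz : z ≠ 0) :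
    ∃ (T : Finset (HeightOneSpectrum (𝓞 K))) (I : Ideal (𝓞 K)), I ≠ ⊥ ∧
      Ideal.span {z} = (∏ v ∈ T, v.asIdeal) * I ^ 2 := by
  set s := (Ideal.finite_factors (span_singleton_ne hz)).toFinset
  have hs : Function.mulSupport (fun v : HeightOneSpectrum (𝓞 K) =>
      v.maxPowDividing (Ideal.span {z})) ⊆ (s : Set (HeightOneSpectrum (𝓞 K))) := by
    intro v hv
    refine mem_coe.mpr ((Set.Finite.mem_toFinset _).mpr ?_)
    show v.asIdeal ∣ Ideal.span {z}
    rw [Ideal.dvd_span_singleton, ← expo_ne_zero_iff v hz]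
    intro h
    exact hv (by simp [HeightOneSpectrum.maxPowDividing, show expo v z = 0 from h])
  refine ⟨s.filter fun v => expo v z % 2 = 1, ∏ v ∈ s, v.asIdeal ^ (expo v z / 2),
    prod_ne_zero_iff.mpr fun v _ => pow_ne_zero _ v.ne_bot, ?_⟩
  rw [← Finset.prod_pow, prod_filter, ← prod_mul_distrib]
  conv_lhs => rw [← Ideal.finprod_heightOneSpectrum_factorization (span_singleton_ne hz),
    finprod_eq_prod_of_mulSupport_subset _ hs]
  refine prod_congr rfl fun v _ => ?_
  rw [← pow_mul, HeightOneSpectrum.maxPowDividing]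
  split_ifs with h
  · rw [← pow_succ']
    congr 1
    show expo v z = _
    omega
  · rw [one_mul]
    congr 1
    show expo v z = _
    omega

/-- The units up to squares. -/
theorem exists_unit_reps (K : Type) [Field K] [NumberField K] :
    ∃ R : Finset (𝓞 K)ˣ, R.card ≤ 2 ^ (Units.rank K + 1) ∧
      ∀ u : (𝓞 K)ˣ, ∃ r ∈ R, ∃ v : (𝓞 K)ˣ, u = r * v ^ 2 := by
  obtain ⟨g, hg⟩ := IsCyclic.exists_generator (α := Units.torsion K)
  set ζ : (𝓞 K)ˣ := g.1
  let F : Fin 2 × (Fin (Units.rank K) → Fin 2) → (𝓞 K)ˣ := fun e =>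
    ζ ^ (e.1 : ℕ) * ∏ i, Units.fundSystem K i ^ (e.2 i : ℕ)
  refine ⟨univ.image F, card_image_le.trans_eq ?_, fun u => ?_⟩
  · rw [card_univ, Fintype.card_prod, Fintype.card_fin, Fintype.card_fun, Fintype.card_fin,
      Fintype.card_fin, pow_succ']
  obtain ⟨⟨t, e⟩, hu, -⟩ := Units.exist_unique_eq_mul_prod K u
  obtain ⟨a, ha⟩ := Subgroup.mem_zpowers_iff.mp (hg t)
  refine ⟨_, mem_image_of_mem F (mem_univ (⟨(a % 2).toNat, by omega⟩,
    fun i => ⟨(e i % 2).toNat, by omega⟩)),
    ζ ^ (a / 2) * ∏ i, Units.fundSystem K i ^ (e i / 2), ?_⟩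
  have hdiv : ∀ (x : (𝓞 K)ˣ) (n : ℤ), x ^ n = x ^ (n % 2).toNat * (x ^ (n / 2)) ^ 2 := by
    intro x n
    rw [← zpow_natCast, ← zpow_natCast (x ^ (n / 2)), ← zpow_mul, ← zpow_add]
    congr 1
    omega
  rw [hu, mul_pow, ← Finset.prod_pow]
  simp only [F]
  rw [mul_mul_mul_comm, ← prod_mul_distrib, ← hdiv]
  congr 1
  · rw [← ha]; rfl
  · exact prod_congr rfl fun i _ => hdiv _ _

variable {L : Type} [Field L] [NumberField L] [Algebra K L]

/-- **An odd exponent means ramification.** -/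
theorem exists_ramified_prime {T : Finset (HeightOneSpectrum (𝓞 K))} {I : Ideal (𝓞 K)}
    (hI : I ≠ ⊥) {α : 𝓞 K} (hα : Ideal.span {α} = (∏ v ∈ T, v.asIdeal) * I ^ 2) {y : 𝓞 L}
    (hy : y ^ 2 = algebraMap (𝓞 K) (𝓞 L) α) {v : HeightOneSpectrum (𝓞 K)} (hv : v ∈ T) :
    ∃ P : Ideal (𝓞 L), P.IsPrime ∧ P ≠ ⊥ ∧ P.comap (algebraMap (𝓞 K) (𝓞 L)) = v.asIdeal ∧
      P ∣ differentIdeal (𝓞 K) (𝓞 L) := by
  set f := algebraMap (𝓞 K) (𝓞 L)
  obtain ⟨⟨P, hPp, hPo⟩⟩ := (inferInstance : Nonempty (v.asIdeal.primesOver (𝓞 L)))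
  have hcomap : P.comap f = v.asIdeal := hPo.over.symm
  have hP0 : P ≠ ⊥ := fun e => v.ne_bot (by
    rw [← hcomap, e, Ideal.comap_bot_of_injective _ (FaithfulSMul.algebraMap_injective _ _)])
  have hdvd : P ∣ v.asIdeal.map f :=
    Ideal.dvd_iff_le.mpr (Ideal.map_le_iff_le_comap.mpr hcomap.ge)
  have hP2 : P ^ 2 ∣ v.asIdeal.map f := by
    by_contra hcon
    have hPprime : Prime P := Ideal.prime_of_isPrime hP0 hPp
    have hrest : ¬ P ∣ (∏ w ∈ T.erase v, w.asIdeal).map f := by
      intro h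
      have hle : (∏ w ∈ T.erase v, w.asIdeal) ≤ v.asIdeal :=
        hcomap ▸ Ideal.map_le_iff_le_comap.mp (Ideal.dvd_iff_le.mp h)
      obtain ⟨w, hw, hwv⟩ := (v.isPrime.prod_le).mp hle
      exact (mem_erase.mp hw).1
        (HeightOneSpectrum.ext ((w.isPrime.isMaximal w.ne_bot).eq_of_le v.isPrime.ne_top hwv))
    have hmap : Ideal.span {y} ^ 2 =
        v.asIdeal.map f * (∏ w ∈ T.erase v, w.asIdeal).map f * I.map f ^ 2 := by
      rw [Ideal.span_singleton_pow, hy, ← Set.image_singleton, ← Ideal.map_span, hα,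
        Ideal.map_mul, Ideal.map_pow, ← mul_prod_erase T _ hv, Ideal.map_mul]
    have hI' : I.map f ≠ 0 := fun e => hI ((Ideal.map_eq_bot_iff_of_injective
      (FaithfulSMul.algebraMap_injective _ _)).mp e)
    have h1 : v.asIdeal.map f ≠ 0 := fun e => v.ne_bot ((Ideal.map_eq_bot_iff_of_injective
      (FaithfulSMul.algebraMap_injective _ _)).mp e)
    have h2 : (∏ w ∈ T.erase v, w.asIdeal).map f ≠ 0 := fun e => hrest (e ▸ dvd_zero P)
    have hne := mul_ne_zero (mul_ne_zero h1 h2) (pow_ne_zero 2 hI')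
    have hy0 : Ideal.span {y} ≠ 0 := fun e => hne (by rw [← hmap, e]; simp)
    have e := congrArg (multiplicity P) hmap
    rw [FiniteMultiplicity.multiplicity_pow hPprime (.of_prime_left hPprime hy0),
      multiplicity_mul hPprime (.of_prime_left hPprime hne),
      multiplicity_mul hPprime (.of_prime_left hPprime (mul_ne_zero h1 h2)),
      FiniteMultiplicity.multiplicity_pow hPprime (.of_prime_left hPprime hI'),
      multiplicity_eq_of_dvd_of_not_dvd (k := 1) (by simpa using hdvd) hcon,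
      multiplicity_eq_zero.mpr hrest] at e
    omega
  haveI : P.IsPrime := hPp
  haveI : v.asIdeal.IsMaximal := v.isPrime.isMaximal v.ne_bot
  exact ⟨P, hPp, hP0, hcomap,
    by simpa using pow_sub_one_dvd_differentIdeal (𝓞 K) P 2 v.ne_bot hP2⟩

/-- **The odd primes against the different.** -/
theorem absNorm_prod_le {T : Finset (HeightOneSpectrum (𝓞 K))} {I : Ideal (𝓞 K)}
    (hI : I ≠ ⊥) {α : 𝓞 K} (hα : Ideal.span {α} = (∏ v ∈ T, v.asIdeal) * I ^ 2) {y : 𝓞 L}
    (hy : y ^ 2 = algebraMap (𝓞 K) (𝓞 L) α) :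
    Ideal.absNorm (∏ v ∈ T, v.asIdeal) ≤ Ideal.absNorm (differentIdeal (𝓞 K) (𝓞 L)) := by
  choose P hPp hP0 hPc hPd using fun v : T => exists_ramified_prime hI hα hy v.2
  have hinj : Function.Injective P := fun v w e =>
    Subtype.ext (HeightOneSpectrum.ext (by rw [← hPc v, ← hPc w, e]))
  have hle : ∀ v : T, Ideal.absNorm v.1.asIdeal ≤ Ideal.absNorm (P v) := fun v => by
    haveI : Finite (𝓞 L ⧸ P v) := Ideal.finiteQuotientOfFreeOfNeBot _ (hP0 v)
    simp only [Ideal.absNorm_apply, Submodule.cardQuot_apply]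
    exact Nat.card_le_card_of_injective
      (Ideal.quotientMap (P v) (algebraMap (𝓞 K) (𝓞 L)) (hPc v).ge)
      (Ideal.quotientMap_injective' (hPc v).le)
  rw [map_prod, ← Finset.prod_coe_sort]
  refine (prod_le_prod' fun v _ => hle v).trans ?_
  rw [← map_prod]
  refine Nat.le_of_dvd (Nat.pos_of_ne_zero ?_) (map_dvd _ ?_)
  · rw [Ne, Ideal.absNorm_eq_zero_iff]
    exact differentIdeal_ne_bot
  · rw [← prod_image (f := fun Q => Q) fun v _ w _ e => hinj e]
    refine prod_primes_dvd _ (fun Q hQ => ?_) fun Q hQ => ?_ <;>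
      obtain ⟨v, -, rfl⟩ := mem_image.mp hQ
    · exact Ideal.prime_of_isPrime (hP0 v) (hPp v)
    · exact hPd v

/-- **Quadratic extensions against ideals, the two-torsion and the units.** -/
theorem extensions_le {ι : Type*} {L : ι → Type} [∀ i, Field (L i)] [∀ i, NumberField (L i)]
    [∀ i, Algebra K (L i)] (h2 : ∀ i, finrank K (L i) = 2) (Z : ℕ)
    (hZ : ∀ i, Ideal.absNorm (differentIdeal (𝓞 K) (𝓞 (L i))) ≤ Z)
    (hne : ∀ i j, Nonempty (L i ≃+* L j) → i = j) :
    Finite ι ∧ Nat.card ι ≤ (∑ n ∈ Ioc 0 Z, normFibre K n) *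
      Nat.card {c : ClassGroup (𝓞 K) // c ^ 2 = 1} * 2 ^ (Units.rank K + 1) := by
  obtain ⟨R, hR, hRu⟩ := exists_unit_reps K
  choose y hy α hα hyα using fun i => exists_integral_sq_root (K := K) (h2 i)
  choose T I hI hspan using fun i => exists_decomposition (hα i)
  set J : ι → Ideal (𝓞 K) := fun i => ∏ v ∈ T i, v.asIdeal
  have hJ : ∀ i, Ideal.absNorm (J i) ∈ Ioc 0 Z := by
    intro i
    have hint : IsIntegral ℤ (y i) := IsIntegral.of_pow two_pos (hyα i ▸
      (RingOfIntegers.isIntegral_coe (α i)).map ((algebraMap K (L i)).toIntAlgHom))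
    refine mem_Ioc.mpr ⟨Nat.pos_of_ne_zero ?_, (absNorm_prod_le (y := ⟨y i, hint⟩)
      (hI i) (hspan i) ?_).trans (hZ i)⟩
    · rw [Ne, Ideal.absNorm_eq_zero_iff]
      exact prod_ne_zero_iff.mpr fun v _ => v.ne_bot
    · refine RingOfIntegers.ext ?_
      show (y i) ^ 2 = _
      rw [hyα i]
      exact (IsScalarTower.algebraMap_apply (𝓞 K) K (L i) _).symm.trans
        (IsScalarTower.algebraMap_apply (𝓞 K) (𝓞 (L i)) (L i) _)
  let cls : ι → ClassGroup (𝓞 K) := fun i =>
    ClassGroup.mk0 ⟨I i, mem_nonZeroDivisors_of_ne_zero (hI i)⟩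
  let ref : ι → ι := fun i => @Function.invFun _ _ ⟨i⟩ J (J i)
  have hJref : ∀ i, J (ref i) = J i := fun i => @Function.invFun_eq _ _ ⟨i⟩ J (J i) ⟨i, rfl⟩
  have hcls : ∀ i, (cls i / cls (ref i)) ^ 2 = 1 := by
    intro i
    rw [div_pow, div_eq_one, ← map_pow, ← map_pow, ClassGroup.mk0_eq_mk0_iff]
    refine ⟨α (ref i), α i, hα _, hα _, ?_⟩
    simp only [SubmonoidClass.coe_pow]
    rw [hspan i, hspan (ref i), show (∏ v ∈ T (ref i), v.asIdeal) = ∏ v ∈ T i, v.asIdeal from
      hJref i, mul_assoc, mul_assoc, mul_comm (I i ^ 2) (I (ref i) ^ 2)]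
  let key : ι → Ideal (𝓞 K) × ClassGroup (𝓞 K) := fun i => (J i, cls i)
  have hkey : ∀ i j, key i = key j → ∃ (u : (𝓞 K)ˣ) (a b : 𝓞 K),
      a ≠ 0 ∧ b ≠ 0 ∧ α i * a ^ 2 = u * (α j * b ^ 2) := by
    intro i j h
    obtain ⟨p, q, hp, hq, hpq⟩ := ClassGroup.mk0_eq_mk0_iff.mp (congrArg Prod.snd h)
    have e : Ideal.span {α i * p ^ 2} = Ideal.span {α j * q ^ 2} := by
      rw [← Ideal.span_singleton_mul_span_singleton, ← Ideal.span_singleton_mul_span_singleton,
        ← Ideal.span_singleton_pow, ← Ideal.span_singleton_pow, hspan i, hspan j,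
        show (∏ v ∈ T i, v.asIdeal) = ∏ v ∈ T j, v.asIdeal from congrArg Prod.fst h,
        mul_assoc, mul_assoc, ← mul_pow, ← mul_pow]
      congr 2
      rw [mul_comm (I i), mul_comm (I j)]
      exact hpq
    obtain ⟨u, hu⟩ := Ideal.span_singleton_eq_span_singleton.mp e.symm
    exact ⟨u, p, q, hp, hq, by rw [← hu, mul_comm]⟩
  have href : ∀ i, ∃ r ∈ R, ∃ w : (𝓞 K)ˣ, ∃ a b : 𝓞 K, a ≠ 0 ∧ b ≠ 0 ∧
      α i * a ^ 2 = ↑(r * w ^ 2) * (α (@Function.invFun _ _ ⟨i⟩ key (key i)) * b ^ 2) := by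
    intro i
    obtain ⟨u, a, b, ha, hb, h⟩ := hkey i (@Function.invFun _ _ ⟨i⟩ key (key i))
      (@Function.invFun_eq _ _ ⟨i⟩ key (key i) ⟨i, rfl⟩).symm
    obtain ⟨r, hr, w, rfl⟩ := hRu u
    exact ⟨r, hr, w, a, b, ha, hb, h⟩
  choose r hr w a b ha hb href using href
  let d : ι → ((Σ n : Ioc 0 Z, {A : Ideal (𝓞 K) // Ideal.absNorm A = n}) ×
      {c : ClassGroup (𝓞 K) // c ^ 2 = 1}) × R := fun i =>
    ((⟨⟨_, hJ i⟩, J i, rfl⟩, ⟨_, hcls i⟩), ⟨r i, hr i⟩)
  have hd : Function.Injective d := by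
    intro i j h
    have hJij : J i = J j := congrArg (fun x => x.1.1.2.1) h
    have h1 : key i = key j := by
      refine Prod.ext hJij ?_
      have h' := congrArg (fun x => x.1.2.1) h
      simp only [d] at h'
      rw [show ref j = ref i by simp only [ref, hJij]] at h'
      exact div_left_injective h'
    have h2' : r i = r j := congrArg Subtype.val (congrArg Prod.snd h)
    have e : @Function.invFun _ _ ⟨i⟩ key (key i) = @Function.invFun _ _ ⟨j⟩ key (key j) := by
      rw [h1]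
    have h3 := href i
    have h4 := href j
    rw [e, h2'] at h3
    push_cast at h3 h4
    set A : 𝓞 K := a i * w j * b j
    set B : 𝓞 K := a j * w i * b i
    have hA : (A : K) ≠ 0 := RingOfIntegers.coe_ne_zero_iff.mpr
      (mul_ne_zero (mul_ne_zero (ha i) (w j).ne_zero) (hb j))
    have hB : (B : K) ≠ 0 := RingOfIntegers.coe_ne_zero_iff.mpr
      (mul_ne_zero (mul_ne_zero (ha j) (w i).ne_zero) (hb i))
    have hAB : α i * A ^ 2 = α j * B ^ 2 := by
      simp only [A, B]
      linear_combination ((w j : 𝓞 K) * b j) ^ 2 * h3 - ((w i : 𝓞 K) * b i) ^ 2 * h4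
    have hAB' : (α i : K) * (A : K) ^ 2 = (α j : K) * (B : K) ^ 2 := by
      exact_mod_cast congrArg (fun x : 𝓞 K => (x : K)) hAB
    have hAB0 : algebraMap K (L i) ((A : K) / B) ≠ 0 := by simpa using div_ne_zero hA hB
    refine hne i j (iso_of_sq (K := K) (h2 i) (h2 j) (c := (α j : K))
      (y := y i * algebraMap K (L i) ((A : K) / B)) ?_ (hy j) ?_ (hyα j))
    · rintro ⟨q, hq⟩
      exact hy i ⟨q / ((A : K) / B), by rw [map_div₀, hq, mul_div_cancel_right₀ _ hAB0]⟩
    · rw [mul_pow, hyα i, ← map_pow, ← map_mul, div_pow, ← mul_div_assoc, hAB',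
        mul_div_cancel_right₀ _ (pow_ne_zero 2 hB)]
  haveI : ∀ n : Ioc 0 Z, Finite {A : Ideal (𝓞 K) // Ideal.absNorm A = n} := fun n =>
    (Ideal.finite_setOfPred_absNorm_eq _).to_subtype
  refine ⟨Finite.of_injective d hd, (Nat.card_le_card_of_injective d hd).trans ?_⟩
  rw [Nat.card_prod, Nat.card_prod, Nat.card_sigma, Nat.card_eq_fintype_card (α := R),
    Fintype.card_coe, ← Finset.sum_coe_sort (Ioc 0 Z) (normFibre K)]
  exact Nat.mul_le_mul_left _ hR

end FA.QuarticFieldsCount
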