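import Fermat.Agent.BrumerSilverman.Field
import Fermat.Agent.QuarticFieldsCount.Descent
import Fermat.Agent.TwoTorsionBound.Main

/-!
# Quartic fields with a quadratic subfield

Over the quadratic field of discriminant `d` at most `C X |d| ^ (-9/8)` quartic fields have
`|discr| ≤ X`; the quadratic field is fixed by `d` and the sum over `d` converges.
-/

set_option autoImplicit false
set_option linter.style.haveILetI false

noncomputable section

open NumberField Module Finset Matrix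
open FA.MordellAverage FA.BrumerSilverman
open scoped Classical

namespace FA.QuarticFieldsCount

/-- The square root of the discriminant. -/
theorem exists_sqrt_discr {K : Type} [Field K] [NumberField K] (hK : finrank ℚ K = 2) :
    ∃ S : K, S ^ 2 = ((discr K : ℚ) : K) ∧ ¬ IsSquare (discr K : ℚ) := by
  obtain ⟨r, hr, q, hq⟩ := exists_sq_root hK
  rw [eq_ratCast] at hq
  have hqsq : ¬ IsSquare q := by
    rintro ⟨c, rfl⟩
    push_cast at hq
    rcases mul_eq_zero.mp (show (r - (c : K)) * (r + (c : K)) = 0 by linear_combination hq) with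
      h | h
    · exact hr ⟨c, by rw [eq_ratCast]; linear_combination -h⟩
    · exact hr ⟨-c, by rw [eq_ratCast, Rat.cast_neg]; linear_combination -h⟩
  have hq0 : q ≠ 0 := fun h => hqsq (h ▸ IsSquare.zero)
  have h1 : Algebra.trace ℚ K 1 = 2 := by
    rw [← map_one (algebraMap ℚ K), Algebra.trace_algebraMap, hK]; norm_num
  have h2 : Algebra.trace ℚ K (r * r) = 2 * q := by
    rw [← sq, hq, ← eq_ratCast (algebraMap ℚ K), Algebra.trace_algebraMap, hK, nsmul_eq_mul]
    norm_num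
  have hdet : Algebra.discr ℚ ![1, r] = 4 * q := by
    rw [Algebra.discr_def, det_fin_two]
    simp [Algebra.traceMatrix_apply, Algebra.traceForm_apply, h1, h2, trace_root hK hqsq r hq]
    ring
  have hcard : Fintype.card (Free.ChooseBasisIndex ℤ (𝓞 K)) = 2 := by
    rw [← finrank_eq_card_chooseBasisIndex, RingOfIntegers.rank, hK]
  let e : Free.ChooseBasisIndex ℤ (𝓞 K) ≃ Fin 2 := Fintype.equivFinOfCardEq hcard
  set B := (integralBasis K).reindex e with hB
  set δ : ℚ := (B.toMatrix ![1, r]).det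
  have hd : Algebra.discr ℚ ![1, r] = δ ^ 2 * (discr K : ℚ) := by
    rw [coe_discr, ← Algebra.discr_reindex ℚ (integralBasis K) e, ← Basis.coe_reindex, ← hB,
      ← Algebra.discr_of_matrix_vecMul, B.toMatrix_map_vecMul]
  have hδ : δ ≠ 0 := fun h => hq0 (by
    rw [hdet, h] at hd
    linarith)
  refine ⟨2 * r / (δ : K), ?_, fun ⟨c, hc⟩ => hqsq ⟨δ * c / 2, ?_⟩⟩
  · have hqd : (4 : K) * (q : K) = (δ : K) ^ 2 * ((discr K : ℚ) : K) := by
      have := congrArg (fun x : ℚ => (x : K)) (hdet.symm.trans hd)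
      push_cast at this ⊢
      exact this
    rw [div_pow, mul_pow, hq, div_eq_iff (pow_ne_zero 2 (Rat.cast_ne_zero.mpr hδ))]
    linear_combination hqd
  · rw [hdet, hc] at hd
    linear_combination hd / 4

/-- Quadratic fields with the same discriminant are isomorphic. -/
theorem iso_of_discr_eq {K K' : Type} [Field K] [NumberField K] [Field K'] [NumberField K']
    (hK : finrank ℚ K = 2) (hK' : finrank ℚ K' = 2) (hd : discr K = discr K') :
    Nonempty (K ≃+* K') := by
  obtain ⟨S, hS, hsq⟩ := exists_sqrt_discr hK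
  obtain ⟨S', hS', -⟩ := exists_sqrt_discr hK'
  rw [← hd] at hS'
  exact ⟨((AlgEquiv.ofBijective _ (toField_bijective hK hsq S hS)).symm.trans
    (AlgEquiv.ofBijective _ (toField_bijective hK' hsq S' hS'))).toRingEquiv⟩

/-- The discriminant in the tower. -/
theorem natAbs_discr_tower {K L : Type} [Field K] [NumberField K] [Field L] [NumberField L]
    [Algebra K L] (h2 : finrank K L = 2) : (discr L).natAbs =
      Ideal.absNorm (differentIdeal (𝓞 K) (𝓞 L)) * (discr K).natAbs ^ 2 := by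
  rw [natAbs_discr_eq_absNorm_differentIdeal_mul_natAbs_discr_pow K (𝓞 K) L (𝓞 L), h2]

/-- **Over one quadratic field.** -/
theorem exists_fibre_bound : ∃ C : ℝ, 0 ≤ C ∧
    ∀ (K : Type) [Field K] [NumberField K], finrank ℚ K = 2 → ∀ (X : ℕ) (ι : Type)
      (L : ι → Type) [∀ i, Field (L i)] [∀ i, NumberField (L i)],
      (∀ i, finrank ℚ (L i) = 4) → (∀ i, Nonempty (K →+* L i)) →
      (∀ i, (discr (L i)).natAbs ≤ X) → (∀ i j, Nonempty (L i ≃+* L j) → i = j) →
      Finite ι ∧ (Nat.card ι : ℝ) ≤ C * |(discr K : ℝ)| ^ (-(9 / 8) : ℝ) * X := by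
  obtain ⟨A₀, htwo⟩ :=
    FA.TwoTorsionBound.exists_two_torsion_bound 2 le_rfl (show (0 : ℝ) < 1 / 8 by norm_num)
  set A := max A₀ 0
  have hA : 0 ≤ A := le_max_right _ _
  refine ⟨8 * A, by linarith, fun K _ _ hK X ι L _ _ h4 hφ hX hne => ?_⟩
  let φ := fun i => (hφ i).some
  letI : ∀ i, Algebra K (L i) := fun i => (φ i).toAlgebra
  have h2 : ∀ i, finrank K (L i) = 2 := fun i => by
    have := Module.finrank_mul_finrank ℚ K (L i)
    rw [hK, h4 i] at this
    omega
  have hd0 : 0 < (discr K).natAbs ^ 2 := pow_pos (Int.natAbs_pos.mpr (discr_ne_zero K)) 2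
  obtain ⟨hfin, hcard⟩ := extensions_le h2 (X / (discr K).natAbs ^ 2) (fun i => by
    rw [Nat.le_div_iff_mul_le hd0, ← natAbs_discr_tower (h2 i)]
    exact hX i) hne
  refine ⟨hfin, ?_⟩
  have hr : Units.rank K + 1 ≤ 2 := by
    have h1 := InfinitePlace.card_add_two_mul_card_eq_rank K
    have h2 := InfinitePlace.card_eq_nrRealPlaces_add_nrComplexPlaces (K := K)
    rw [Units.rank]
    omega
  set D : ℝ := |(discr K : ℝ)|
  set Z := X / (discr K).natAbs ^ 2
  have hD : 0 < D := abs_pos.mpr (Int.cast_ne_zero.mpr (discr_ne_zero K))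
  have hDn : D = ((discr K).natAbs : ℝ) := by
    simp only [D]; rw [Nat.cast_natAbs, Int.cast_abs]
  have hZ : (Z : ℝ) ≤ (X : ℝ) / D ^ 2 := by
    rw [hDn]
    simp only [Z]
    exact Nat.cast_div_le.trans (le_of_eq (by push_cast; rfl))
  have h := (htwo K hK).trans
    (mul_le_mul_of_nonneg_right (le_max_left A₀ 0) (Real.rpow_nonneg (abs_nonneg _) _))
  rw [show (1 : ℝ) / 2 - 1 / (2 * ((2 : ℕ) : ℝ)) + 1 / 8 = 3 / 8 by norm_num] at h
  calc (Nat.card ι : ℝ)
      ≤ ((∑ n ∈ Ioc 0 Z, normFibre K n : ℕ) : ℝ) *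
          Nat.card {c : ClassGroup (𝓞 K) // c ^ 2 = 1} * 2 ^ 2 := by
        have := hcard.trans (Nat.mul_le_mul_left _ (Nat.pow_le_pow_right (by norm_num) hr))
        exact_mod_cast this
    _ ≤ (2 * Real.sqrt D * ((X : ℝ) / D ^ 2)) * (A * D ^ (3 / 8 : ℝ)) * 2 ^ 2 := by
        refine mul_le_mul_of_nonneg_right (mul_le_mul ((idealCount_le hK Z).trans
          (mul_le_mul_of_nonneg_left hZ (by positivity))) h (Nat.cast_nonneg _) (by positivity))
          (by norm_num)
    _ = _ := by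
        rw [show (-(9 / 8) : ℝ) = 1 / 2 + 3 / 8 - (2 : ℕ) by norm_num, Real.rpow_sub hD,
          Real.rpow_add hD, Real.rpow_natCast, ← Real.sqrt_eq_rpow]
        ring

/-- **Quartic fields with a quadratic subfield.** -/
theorem exists_quartic_bound : ∃ C : ℝ, 0 ≤ C ∧
    ∀ (X : ℝ), 0 ≤ X → ∀ (ι : Type) (L : ι → Type) [∀ i, Field (L i)] [∀ i, NumberField (L i)],
      (∀ i, finrank ℚ (L i) = 4) →
      (∀ i, ∃ k : IntermediateField ℚ (L i), finrank ℚ k = 2) →
      (∀ i, |(discr (L i) : ℝ)| ≤ X) → (∀ i j, Nonempty (L i ≃+* L j) → i = j) →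
      Finite ι ∧ (Nat.card ι : ℝ) ≤ C * X := by
  obtain ⟨C, hC, hfib⟩ := exists_fibre_bound
  have hsum : Summable fun d : ℤ => |(d : ℝ)| ^ (-(9 / 8) : ℝ) :=
    Real.summable_abs_int_rpow (by norm_num)
  set S := ∑' d : ℤ, |(d : ℝ)| ^ (-(9 / 8) : ℝ)
  have hS : 0 ≤ S := tsum_nonneg fun d => Real.rpow_nonneg (abs_nonneg _) _
  refine ⟨C * S, mul_nonneg hC hS, fun X hX ι L _ _ h4 hk hdisc hne => ?_⟩
  choose k hk using hk
  set N := ⌊X⌋₊
  have hN : ∀ i, (discr (L i)).natAbs ≤ N := fun i => Nat.le_floor (by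
    rw [Nat.cast_natAbs, Int.cast_abs]; exact hdisc i)
  have hmem : ∀ i, discr (k i) ∈ Finset.Icc (-(N : ℤ)) N := by
    intro i
    have h2 : finrank (k i) (L i) = 2 := by
      have := Module.finrank_mul_finrank ℚ (k i) (L i)
      rw [hk i, h4 i] at this
      omega
    have h := natAbs_discr_tower h2
    have h1 : 1 ≤ Ideal.absNorm (differentIdeal (𝓞 (k i)) (𝓞 (L i))) :=
      Nat.one_le_iff_ne_zero.mpr (by
        rw [Ne, Ideal.absNorm_eq_zero_iff]; exact differentIdeal_ne_bot)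
    have : (discr (k i)).natAbs ≤ N := by
      calc (discr (k i)).natAbs ≤ (discr (k i)).natAbs ^ 2 := Nat.le_self_pow two_ne_zero _
        _ ≤ _ := Nat.le_mul_of_pos_left _ h1
        _ ≤ N := h ▸ hN i
    rw [Finset.mem_Icc]
    omega
  have hfibre : ∀ d : ℤ, Finite {i // discr (k i) = d} ∧
      (Nat.card {i // discr (k i) = d} : ℝ) ≤ C * |(d : ℝ)| ^ (-(9 / 8) : ℝ) * N := by
    intro d
    rcases isEmpty_or_nonempty {i // discr (k i) = d} with hE | ⟨i₀, rfl⟩
    · exact ⟨inferInstance, by simp; positivity⟩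
    refine hfib (k i₀) (hk i₀) N _ (fun i => L i.1) (fun i => h4 i.1) (fun i => ?_)
      (fun i => hN i.1) fun i j e => Subtype.ext (hne _ _ e)
    obtain ⟨e⟩ := iso_of_discr_eq (hk i₀) (hk i.1) i.2.symm
    exact ⟨((k i.1).val : (k i.1) →+* L i.1).comp e.toRingHom⟩
  set D := Finset.Icc (-(N : ℤ)) N
  haveI : ∀ d : D, Finite {i // discr (k i) = (d : ℤ)} := fun d => (hfibre d).1
  let e : (Σ d : D, {i // discr (k i) = (d : ℤ)}) ≃ ι :=
    { toFun := fun x => x.2.1
      invFun := fun i => ⟨⟨_, hmem i⟩, i, rfl⟩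
      left_inv := fun x => Sigma.subtype_ext (Subtype.ext x.2.2) rfl
      right_inv := fun i => rfl }
  refine ⟨Finite.of_equiv _ e, ?_⟩
  rw [← Nat.card_congr e, Nat.card_sigma, Nat.cast_sum]
  calc ∑ d : D, (Nat.card {i // discr (k i) = (d : ℤ)} : ℝ)
      ≤ ∑ d : D, C * |((d : ℤ) : ℝ)| ^ (-(9 / 8) : ℝ) * N := sum_le_sum fun d _ => (hfibre d).2
    _ = C * (∑ d ∈ D, |(d : ℝ)| ^ (-(9 / 8) : ℝ)) * N := by
        rw [Finset.sum_coe_sort D (fun d => C * |(d : ℝ)| ^ (-(9 / 8) : ℝ) * N), ← sum_mul,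
          ← mul_sum]
    _ ≤ C * S * X := by
        refine mul_le_mul (mul_le_mul_of_nonneg_left ?_ hC) (Nat.floor_le hX) (Nat.cast_nonneg _)
          (mul_nonneg hC hS)
        exact hsum.sum_le_tsum _ fun d _ => Real.rpow_nonneg (abs_nonneg _) _

end FA.QuarticFieldsCount
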